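/-
S27 by-product (helper6746): `Pic0` of a curve over `ℂ` is a DIVISIBLE group.

Same proof as the torsion count T1 of the Spine (helper9686), with package E's
`CGC.card_torsion_eq_pow` replaced by its lemma `CGC.nsmul_surjective` (helper9506):
a connected topological group with an almost additive chart at `0` is divisible.

* `nsmul_surjective_of_chart_fin` : the hypotheses of `CGC.card_torsion_eq_pow` give surjectivity
  of `x ↦ n • x`;
* `nsmul_surjective_of_chart`     : the same for a chart on any finite-dimensional real normed space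
  (the transport is copied from `Spine.card_torsion_of_chart`);
* `pic0_divisible_of_isRS`, `pic0_divisible_complex` : `Pic0 ℂ F` is divisible.
-/
import Fermat.Agent.S27.Spine.T1

set_option autoImplicit false

open AlgebraicCurve Metric Set

namespace Fermat.Agent.S27.Div6746

open Fermat.Agent.S27.Spine

/-- A connected abelian topological group with an `m`-dimensional chart at `0` in which the group
law is almost additive is divisible (hypotheses of `CGC.card_torsion_eq_pow`). -/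
theorem nsmul_surjective_of_chart_fin {G : Type*} [AddCommGroup G] [TopologicalSpace G]
    [IsTopologicalAddGroup G] [ConnectedSpace G] {m : ℕ}
    (ψ : (Fin m → ℝ) → G) (a : (Fin m → ℝ) → (Fin m → ℝ) → (Fin m → ℝ)) (ρ : ℝ) (hρ : 0 < ρ)
    (hψ0 : ψ 0 = 0) (hcont : ContinuousOn ψ (ball 0 ρ)) (hinj : InjOn ψ (ball 0 ρ))
    (hopen : ∀ r, 0 < r → r ≤ ρ → IsOpen (ψ '' ball 0 r))
    (hadd : ∃ δ > 0, ∀ x y, ‖x‖ < δ → ‖y‖ < δ → ‖a x y‖ < ρ ∧ ψ (a x y) = ψ x + ψ y)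
    (hest : ∀ ε > 0, ∃ δ > 0, ∀ x y, ‖x‖ < δ → ‖y‖ < δ → ‖a x y - x - y‖ ≤ ε * ‖y‖)
    (n : ℕ) (hn : 0 < n) : Function.Surjective (fun x : G => n • x) := by
  classical
  -- the almost additive structure
  obtain ⟨δa, hδa, hadd'⟩ := hadd
  obtain ⟨δe, hδe, hest'⟩ := hest (1 / 20) (by norm_num)
  set δ := min (min δa δe) ρ with hδdef
  have hδ : 0 < δ := lt_min (lt_min hδa hδe) hρ
  have hδa' : δ ≤ δa := (min_le_left _ _).trans (min_le_left _ _)
  have hδe' : δ ≤ δe := (min_le_left _ _).trans (min_le_right _ _)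
  have hδρ : δ ≤ ρ := min_le_right _ _
  have h : CGC.AlmostAdd ψ a ρ δ :=
    { δ_pos := hδ
      δ_le := hδρ
      map_zero := hψ0
      inj := hinj
      lt := fun x y hx hy => (hadd' x y (by linarith) (by linarith)).1
      map_add := fun x y hx hy => (hadd' x y (by linarith) (by linarith)).2
      est := fun x y hx hy => hest' x y (by linarith) (by linarith) }
  -- chart subtraction
  obtain ⟨δ₁, hδ₁0, hδ₁, hsub⟩ : ∃ δ₁ > 0, δ₁ ≤ δ ∧
      ∀ x x' : Fin m → ℝ, ‖x‖ < δ₁ → ‖x'‖ < δ₁ → ∃ z, ‖z‖ < δ ∧ ψ z = ψ x - ψ x' := by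
    have hW : ψ '' ball 0 δ ∈ nhds (0 : G) :=
      (hopen δ hδ hδρ).mem_nhds ⟨0, by simpa using hδ, hψ0⟩
    have hc0 : ContinuousAt ψ 0 :=
      hcont.continuousAt (isOpen_ball.mem_nhds (by simpa using hρ))
    have hF : ContinuousAt (fun p : (Fin m → ℝ) × (Fin m → ℝ) => ψ p.1 - ψ p.2) (0, 0) := by
      have h1 : ContinuousAt (fun p : (Fin m → ℝ) × (Fin m → ℝ) => ψ p.1) (0, 0) :=
        ContinuousAt.comp (g := ψ) (f := Prod.fst) hc0 continuousAt_fst
      have h2 : ContinuousAt (fun p : (Fin m → ℝ) × (Fin m → ℝ) => ψ p.2) (0, 0) :=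
        ContinuousAt.comp (g := ψ) (f := Prod.snd) hc0 continuousAt_snd
      exact h1.sub h2
    have hpre : (fun p : (Fin m → ℝ) × (Fin m → ℝ) => ψ p.1 - ψ p.2) ⁻¹' (ψ '' ball 0 δ)
        ∈ nhds ((0 : Fin m → ℝ), (0 : Fin m → ℝ)) := by
      apply hF.preimage_mem_nhds
      simpa [hψ0] using hW
    obtain ⟨ε, hε, hball⟩ := Metric.mem_nhds_iff.mp hpre
    refine ⟨min ε δ, lt_min hε hδ, min_le_right _ _, fun x x' hx hx' => ?_⟩
    have hmem : (x, x') ∈ ball ((0 : Fin m → ℝ), (0 : Fin m → ℝ)) ε := by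
      rw [mem_ball, Prod.dist_eq, dist_zero_right, dist_zero_right]
      exact max_lt (lt_of_lt_of_le hx (min_le_left _ _)) (lt_of_lt_of_le hx' (min_le_left _ _))
    obtain ⟨z, hz, hzz⟩ := hball hmem
    exact ⟨z, by simpa using hz, hzz⟩
  exact CGC.nsmul_surjective h hδ₁0 hδ₁ hsub hopen hn

/-- The same for a chart on an arbitrary finite-dimensional real normed space
(transport copied from `Spine.card_torsion_of_chart`, helper9686). -/
theorem nsmul_surjective_of_chart {G : Type*} [AddCommGroup G] [TopologicalSpace G]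
    [IsTopologicalAddGroup G] [ConnectedSpace G]
    {E : Type*} [NormedAddCommGroup E] [NormedSpace ℝ E] [FiniteDimensional ℝ E]
    (ψ : E → G) (a : E → E → E) (ρ : ℝ) (hρ : 0 < ρ) (hψ0 : ψ 0 = 0)
    (hcont : ContinuousOn ψ (ball 0 ρ)) (hinj : InjOn ψ (ball 0 ρ))
    (hopen : ∀ U : Set E, U ⊆ ball 0 ρ → IsOpen U → IsOpen (ψ '' U))
    (hadd : ∃ δ : ℝ, 0 < δ ∧ ∀ x y, ‖x‖ < δ → ‖y‖ < δ → ψ (a x y) = ψ x + ψ y)
    (hest : ∀ ε : ℝ, 0 < ε → ∃ δ : ℝ, 0 < δ ∧ ∀ x y, ‖x‖ < δ → ‖y‖ < δ →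
      ‖a x y - x - y‖ ≤ ε * ‖y‖)
    (n : ℕ) (hn : 0 < n) : Function.Surjective (fun x : G => n • x) := by
  set m := Module.finrank ℝ E with hm
  let Λ : E ≃L[ℝ] (Fin m → ℝ) := ContinuousLinearEquiv.ofFinrankEq (by simp [hm])
  set C : ℝ := ‖(Λ.symm : (Fin m → ℝ) →L[ℝ] E)‖ + 1 with hC
  set C' : ℝ := ‖(Λ : E →L[ℝ] (Fin m → ℝ))‖ + 1 with hC'
  have hCpos : 0 < C := by positivity
  have hC'pos : 0 < C' := by positivity
  have hΛs : ∀ x, ‖Λ.symm x‖ ≤ C * ‖x‖ := fun x =>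
    ((Λ.symm : (Fin m → ℝ) →L[ℝ] E).le_opNorm x).trans
      (mul_le_mul_of_nonneg_right (by simp [hC]) (norm_nonneg x))
  have hΛ : ∀ y, ‖Λ y‖ ≤ C' * ‖y‖ := fun y =>
    ((Λ : E →L[ℝ] (Fin m → ℝ)).le_opNorm y).trans
      (mul_le_mul_of_nonneg_right (by simp [hC']) (norm_nonneg y))
  have hρ' : 0 < ρ / C := div_pos hρ hCpos
  have hball : ∀ x : Fin m → ℝ, ‖x‖ < ρ / C → Λ.symm x ∈ ball (0 : E) ρ := by
    intro x hx
    rw [mem_ball_zero_iff]
    calc ‖Λ.symm x‖ ≤ C * ‖x‖ := hΛs x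
      _ < C * (ρ / C) := by gcongr
      _ = ρ := by field_simp
  have hmaps : MapsTo Λ.symm (ball (0 : Fin m → ℝ) (ρ / C)) (ball (0 : E) ρ) := fun x hx =>
    hball x (by simpa using hx)
  refine nsmul_surjective_of_chart_fin (ψ ∘ Λ.symm) (fun x y => Λ (a (Λ.symm x) (Λ.symm y)))
    (ρ / C) hρ' (by simp [hψ0]) ?_ ?_ ?_ ?_ ?_ n hn
  · exact hcont.comp Λ.symm.continuous.continuousOn hmaps
  · exact hinj.comp Λ.symm.injective.injOn hmaps
  · intro r _ hr
    rw [image_comp]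
    refine hopen _ ?_ (Λ.symm.toHomeomorph.isOpenMap _ isOpen_ball)
    rintro _ ⟨x, hx, rfl⟩
    exact hball x (lt_of_lt_of_le (by simpa using hx) hr)
  · obtain ⟨δ₁, hδ₁, hadd₁⟩ := hadd
    obtain ⟨δ₂, hδ₂, hest₂⟩ := hest 1 one_pos
    refine ⟨min (min (δ₁ / C) (δ₂ / C)) (ρ / C / (3 * C * C')), by positivity, ?_⟩
    intro x y hx hy
    have hx1 : ‖Λ.symm x‖ < δ₁ := by
      calc ‖Λ.symm x‖ ≤ C * ‖x‖ := hΛs x
        _ < C * (δ₁ / C) := by
          gcongr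
          exact lt_of_lt_of_le hx ((min_le_left _ _).trans (min_le_left _ _))
        _ = δ₁ := by field_simp
    have hy1 : ‖Λ.symm y‖ < δ₁ := by
      calc ‖Λ.symm y‖ ≤ C * ‖y‖ := hΛs y
        _ < C * (δ₁ / C) := by
          gcongr
          exact lt_of_lt_of_le hy ((min_le_left _ _).trans (min_le_left _ _))
        _ = δ₁ := by field_simp
    have hx2 : ‖Λ.symm x‖ < δ₂ := by
      calc ‖Λ.symm x‖ ≤ C * ‖x‖ := hΛs x
        _ < C * (δ₂ / C) := by
          gcongr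
          exact lt_of_lt_of_le hx ((min_le_left _ _).trans (min_le_right _ _))
        _ = δ₂ := by field_simp
    have hy2 : ‖Λ.symm y‖ < δ₂ := by
      calc ‖Λ.symm y‖ ≤ C * ‖y‖ := hΛs y
        _ < C * (δ₂ / C) := by
          gcongr
          exact lt_of_lt_of_le hy ((min_le_left _ _).trans (min_le_right _ _))
        _ = δ₂ := by field_simp
    have hx3 : ‖x‖ < ρ / C / (3 * C * C') := lt_of_lt_of_le hx (min_le_right _ _)
    have hy3 : ‖y‖ < ρ / C / (3 * C * C') := lt_of_lt_of_le hy (min_le_right _ _)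
    constructor
    · have h1 := hest₂ _ _ hx2 hy2
      have h2 : ‖a (Λ.symm x) (Λ.symm y)‖ ≤ ‖Λ.symm x‖ + 2 * ‖Λ.symm y‖ := by
        have : a (Λ.symm x) (Λ.symm y)
            = (a (Λ.symm x) (Λ.symm y) - Λ.symm x - Λ.symm y) + Λ.symm x + Λ.symm y := by abel
        calc ‖a (Λ.symm x) (Λ.symm y)‖
            = ‖(a (Λ.symm x) (Λ.symm y) - Λ.symm x - Λ.symm y) + Λ.symm x + Λ.symm y‖ := by
              rw [← this]
          _ ≤ ‖a (Λ.symm x) (Λ.symm y) - Λ.symm x - Λ.symm y‖ + ‖Λ.symm x‖ + ‖Λ.symm y‖ :=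
              norm_add₃_le
          _ ≤ 1 * ‖Λ.symm y‖ + ‖Λ.symm x‖ + ‖Λ.symm y‖ := by gcongr
          _ = ‖Λ.symm x‖ + 2 * ‖Λ.symm y‖ := by ring
      calc ‖Λ (a (Λ.symm x) (Λ.symm y))‖ ≤ C' * ‖a (Λ.symm x) (Λ.symm y)‖ := hΛ _
        _ ≤ C' * (‖Λ.symm x‖ + 2 * ‖Λ.symm y‖) := by gcongr
        _ ≤ C' * (C * ‖x‖ + 2 * (C * ‖y‖)) := by
            gcongr
            · exact hΛs x
            · exact hΛs y
        _ < C' * (C * (ρ / C / (3 * C * C')) + 2 * (C * (ρ / C / (3 * C * C')))) := by gcongr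
        _ = ρ / C := by field_simp; ring
    · simp only [Function.comp_apply, ContinuousLinearEquiv.symm_apply_apply]
      exact hadd₁ _ _ hx1 hy1
  · intro ε hε
    obtain ⟨δ₂, hδ₂, hest₂⟩ := hest (ε / (C * C')) (by positivity)
    refine ⟨δ₂ / C, by positivity, ?_⟩
    intro x y hx hy
    have hx2 : ‖Λ.symm x‖ < δ₂ := by
      calc ‖Λ.symm x‖ ≤ C * ‖x‖ := hΛs x
        _ < C * (δ₂ / C) := by gcongr
        _ = δ₂ := by field_simp
    have hy2 : ‖Λ.symm y‖ < δ₂ := by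
      calc ‖Λ.symm y‖ ≤ C * ‖y‖ := hΛs y
        _ < C * (δ₂ / C) := by gcongr
        _ = δ₂ := by field_simp
    have h1 := hest₂ _ _ hx2 hy2
    have h3 : Λ (a (Λ.symm x) (Λ.symm y)) - x - y
        = Λ (a (Λ.symm x) (Λ.symm y) - Λ.symm x - Λ.symm y) := by
      simp [map_sub]
    rw [h3]
    calc ‖Λ (a (Λ.symm x) (Λ.symm y) - Λ.symm x - Λ.symm y)‖
        ≤ C' * ‖a (Λ.symm x) (Λ.symm y) - Λ.symm x - Λ.symm y‖ := hΛ _
      _ ≤ C' * (ε / (C * C') * ‖Λ.symm y‖) := by gcongr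
      _ ≤ C' * (ε / (C * C') * (C * ‖y‖)) := by
          gcongr
          exact hΛs y
      _ = ε * ‖y‖ := by field_simp

variable {F : Type*} [Field F] [Algebra ℂ F]

/-- `Pic0` of a compact connected Riemann surface of places is divisible (abstract form). -/
theorem pic0_divisible_of_isRS [TopologicalSpace (Place ℂ F)] (hRS : IsRS F) (hRR : RRFacts ℂ F)
    (n : ℕ) (hn : 0 < n) (c : Pic0 ℂ F) : ∃ y : Pic0 ℂ F, n • y = c := by
  classical
  have := hRR.infinite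
  obtain ⟨P₀⟩ : Nonempty (Place ℂ F) := inferInstance
  obtain ⟨P, hPinj, -, hl⟩ := hRR.nonspecial ∅
  choose κ ε t hκ using fun i => hRS.chart (P i)
  have hκ1 := fun i => (hκ i).1
  have hκ0 := fun i => (hκ i).2
  let _ : TopologicalSpace (Pic0 ℂ F) := picTop P₀
  obtain ⟨hG1, hG2, hG3, hG4⟩ := pic_topGroup hRS hRR P₀
  obtain ⟨ρ₁, hρ₁, -, hinj₁, hcont₁, hopen₁⟩ := pic_chart hRS hRR P₀ P hPinj hl κ ε t hκ1 hκ0
  obtain ⟨a₁, hadd₁, hest₁⟩ := pic_chart_add hRS hRR P₀ P hPinj hl κ ε t hκ1 hκ0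
  have h0 : picChart P₀ P κ 0 = 0 := by
    have : (fun i => κ i 0) = P := funext fun i => hκ0 i
    simp only [picChart, Pi.zero_apply, this, sub_self]
  exact nsmul_surjective_of_chart (G := Pic0 ℂ F) (E := Fin (genusFF ℂ F) → ℂ)
    (picChart P₀ P κ) a₁ ρ₁ hρ₁ h0 hcont₁ hinj₁ hopen₁ hadd₁ hest₁ n hn c

/-- `Pic0 ℂ F` is divisible. -/
theorem pic0_divisible_complex (hRR : RRFacts ℂ F)
    (hB : ∃ top : TopologicalSpace (Place ℂ F), @IsRS F _ _ top) (n : ℕ) (hn : 0 < n)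
    (c : Pic0 ℂ F) : ∃ y : Pic0 ℂ F, n • y = c := by
  obtain ⟨top, hRS⟩ := hB
  exact @pic0_divisible_of_isRS F _ _ top hRS hRR n hn c

end Fermat.Agent.S27.Div6746
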