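/-
S27 by-product (helper6746): descent of DIVISION points along a constant field extension.

`exists_extPic0_eq_of_nsmul`: in the situation of the Lefschetz package F (`IsBC k K F0 F`,
helper2906), if `Pic0(F)[n]` is finite and `n • y` comes from `F0`, then `y` comes from `F0`.
Same proof as leaf F4 `IsBC.exists_extPic0_eq_of_finite` (helper8474), on the finite-orbit form
`L3h7634.exists_rational_rep_of_finite_orbit` (helper7634): the orbit of `y` under the
automorphisms fixing `F0` lies in `y + Pic0(F)[n]`.
-/
import Fermat.Agent.S27.Lef.Main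

set_option autoImplicit false

namespace Fermat.Agent.S27.Div6746

open AlgebraicCurve IntermediateField Fermat.Agent.S27.Lef

variable {k K F0 F : Type*} [Field k] [Field K] [Field F0] [Field F]
  [Algebra k K] [Algebra k F0] [Algebra K F] [Algebra F0 F] [Algebra k F]
  [IsScalarTower k K F] [IsScalarTower k F0 F]
  [IsAlgClosed k] [IsAlgClosed K] [CharZero k]

/-- The automorphisms fixing `F0` fix the divisors coming from `F0`. -/
theorem smul_extDiv (h : IsBC k K F0 F) {g : SemilinearAut K F}
    (hg : g ∈ F4h8474.fixF0 (K := K) (F := F) F0) (D0 : Divisor k F0) :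
    g • h.extDiv D0 = h.extDiv D0 := by
  refine L3h7634.smul_eq_self_of_fix g _ (fun P hP => ?_)
  by_cases hPr : P ∈ Set.range h.extPlace
  · obtain ⟨P0, rfl⟩ := hPr
    exact F4h8474.smul_extPlace h hg P0
  · exact absurd (h.extDiv_apply_of_notMem_range D0 hPr) hP

/-- The automorphisms fixing `F0` fix the classes coming from `F0`. -/
theorem smul_extPic0 (h : IsBC k K F0 F) {g : SemilinearAut K F}
    (hg : g ∈ F4h8474.fixF0 (K := K) (F := F) F0) (z0 : Pic0 k F0) :
    g • h.extPic0 z0 = h.extPic0 z0 := by
  obtain ⟨D0, rfl⟩ := Pic0.mk_surjective z0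
  rw [h.extPic0_mk, SemilinearAut.pic0_smul_mk]
  congr 1
  apply Subtype.ext
  rw [SemilinearAut.coe_degZeroSMulHom, IsBC.coe_extDegZero]
  exact smul_extDiv h hg _

/-- **Descent of division points.** If `Pic0(F)[n]` is finite and `n • y` comes from `F0`, then
`y` comes from `F0`. -/
theorem exists_extPic0_eq_of_nsmul (h : IsBC k K F0 F) (n : ℕ)
    [Finite (Pic0.torsion K F n)] {y : Pic0 K F} {c0 : Pic0 k F0}
    (hy : n • y = h.extPic0 c0) : ∃ y0 : Pic0 k F0, h.extPic0 y0 = y := by
  classical
  have : CharZero K := charZero_of_injective_algebraMap (algebraMap k K).injective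
  have hF : IsFunctionField K F := h.isFF_top
  have : HasPrincipalDivisors K F := ⟨fun f hf => by
    obtain ⟨D, hD⟩ := hF.exists_divisor f
    exact ⟨D, hD, hF.degree_eq_zero_of_principal ⟨f, hf, hD⟩⟩⟩
  have : Infinite (Place k F0) := F4h8474.infinite_place h.isFF
  have hRiem : ∀ D : Divisor K F,
      Divisor.degree D + 1 - (genusFF K F : ℤ)
        ≤ (Module.finrank K (riemannRochSpace D) : ℤ) := by
    intro D
    have := hF.riemannRoch_eq D
    have hi : (0 : ℤ) ≤ (Module.finrank K (H1 D) : ℤ) := Int.natCast_nonneg _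
    linarith
  -- the orbit of `y` is finite: it lies in `y + Pic0(F)[n]`
  have horbit : (Set.range fun g : F4h8474.fixF0 (K := K) (F := F) F0 =>
      (g : SemilinearAut K F) • y).Finite := by
    have hsub : (Set.range fun g : F4h8474.fixF0 (K := K) (F := F) F0 =>
        (g : SemilinearAut K F) • y) ⊆
        (fun t : Pic0.torsion K F n => y + (t : Pic0 K F)) '' Set.univ := by
      rintro _ ⟨g, rfl⟩
      have hmem : (g : SemilinearAut K F) • y - y ∈ Pic0.torsion K F n := by
        rw [Pic0.mem_torsion, zsmul_sub, ← SemilinearAut.smul_zsmul, natCast_zsmul, hy,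
          smul_extPic0 h g.2, sub_self]
      exact ⟨⟨(g : SemilinearAut K F) • y - y, hmem⟩, Set.mem_univ _, by
        show y + ((g : SemilinearAut K F) • y - y) = (g : SemilinearAut K F) • y
        abel⟩
    exact (Set.finite_univ.image _).subset hsub
  obtain ⟨D, hDz, hDsupp⟩ := L3h7634.exists_rational_rep_of_finite_orbit
    (fun v => hF.place_deg_eq_one v) (fun D => hF.finiteDimensional_riemannRochSpace D)
    (genusFF K F : ℤ) hRiem (F4h8474.fixF0 (K := K) (F := F) F0) (Set.range h.extPlace)
    (Set.infinite_range_of_injective h.extPlace_injective)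
    (by
      rintro g hg _ ⟨P, rfl⟩
      exact F4h8474.smul_extPlace h hg P)
    (fun P hP => F4h8474.mem_range_extPlace_of_finite_orbit h P hP)
    y horbit
  obtain ⟨D0, hD0⟩ := h.exists_extDiv_eq (D : Divisor K F)
    (fun Q hQ => h.mem_range_extPlace_iff.mp (hDsupp Q hQ))
  have hdeg0 : D0 ∈ Divisor.degZero (K := k) (F := F0) := by
    rw [Divisor.mem_degZero, ← h.degree_extDiv, hD0]
    exact D.2
  refine ⟨Pic0.mk ⟨D0, hdeg0⟩, ?_⟩
  rw [h.extPic0_mk, ← hDz]
  congr 1
  exact Subtype.ext hD0

end Fermat.Agent.S27.Div6746
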