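/-
S27 by-product (helper6746): `Pic0` is a DIVISIBLE group, for every function field in one
variable over an algebraically closed field of characteristic zero.

* `divOverComplex`                : over `ℂ` (compact connected group with an almost additive chart;
                                    `Div6746/Complex.lean`);
* `pic0_divisible_of_countable`   : over a countable algebraically closed field `k1` of char. 0
                                    (complex model + descent of division points,
                                    `Div6746/Descent.lean`; uses the torsion count over `ℂ`);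
* `pic0_divisible`                : over any algebraically closed field of characteristic 0
                                    (countable model containing the support of a representative);
* `pic0_divisible_of_isCurveOver` : under the hypotheses of the frozen statement S27.

Everything is glue on top of the S27 tree (Spine helper9686 / B-MAIN helper9326 / package A
helper8976 / Lefschetz helper2906, integration helper242).
-/
import Fermat.Agent.S27.Spine.Count
import Fermat.Agent.S27.Div6746.Complex
import Fermat.Agent.S27.Div6746.Descent

set_option autoImplicit false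

namespace Fermat.Agent.S27.Div6746

open AlgebraicCurve IntermediateField Fermat.Agent.S27.Lef

universe u v

/-- `Pic0` is divisible for every function field in one variable over `ℂ`. -/
theorem divOverComplex (F : Type) [Field F] [Algebra ℂ F] (hFF : IsFunctionField ℂ F)
    (n : ℕ) (hn : 0 < n) (c : Pic0 ℂ F) : ∃ y : Pic0 ℂ F, n • y = c := by
  have : IsCurveOver ℂ F := RevBridge5054.isCurveOver_of_exists hFF
  have : Algebra.EssFiniteType ℂ F := RevBridge5054.essFiniteType_of_exists hFF
  have hRR : Spine.RRFacts ℂ F := Spine.rrFacts_of_isCurveOver
  exact pic0_divisible_complex hRR (Spine.exists_isRS hRR) n hn c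

/-- `Pic0` is divisible for every function field over a countable algebraically closed field of
characteristic zero. -/
theorem pic0_divisible_of_countable
    (k1 : Type u) (F1 : Type v) [Field k1] [Field F1] [Algebra k1 F1] [IsAlgClosed k1]
    [CharZero k1] [Countable k1] (h1 : IsFunctionField k1 F1) (n : ℕ) (hn : 0 < n)
    (c : Pic0 k1 F1) : ∃ y : Pic0 k1 F1, n • y = c := by
  obtain ⟨FC, _, _, _, _, _, _, _, h⟩ := exists_complex_model k1 F1 h1
  have hc := Spine.countOverComplex FC h.isFF_top n hn
  have : Finite (Pic0.torsion ℂ FC n) :=
    Nat.finite_of_card_ne_zero (by rw [hc]; positivity)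
  obtain ⟨y, hy⟩ := divOverComplex FC h.isFF_top n hn (h.extPic0 c)
  obtain ⟨y0, hy0⟩ := exists_extPic0_eq_of_nsmul h n hy
  exact ⟨y0, h.extPic0_injective (by rw [map_nsmul, hy0, hy])⟩

/-- **`Pic0` is divisible** for every function field in one variable over an algebraically closed
field of characteristic zero. -/
theorem pic0_divisible {K : Type u} {F : Type v} [Field K] [Field F] [Algebra K F]
    [IsAlgClosed K] [CharZero K] (hF : IsFunctionField K F) (n : ℕ) (hn : 0 < n)
    (c : Pic0 K F) : ∃ y : Pic0 K F, n • y = c := by
  classical
  obtain ⟨D, rfl⟩ := Pic0.mk_surjective c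
  obtain ⟨k1, F1, hk1, hk1c, h, hT⟩ := exists_countable_model hF (D : Divisor K F).support
  have : IsAlgClosed k1 := hk1
  have : Countable k1 := hk1c
  obtain ⟨D0, hD0⟩ := h.exists_extDiv_eq (D : Divisor K F) (fun Q hQ => hT Q hQ)
  have hdeg : D0 ∈ Divisor.degZero (K := k1) (F := F1) := by
    rw [Divisor.mem_degZero, ← h.degree_extDiv, hD0]
    exact D.2
  have hz0 : h.extPic0 (Pic0.mk ⟨D0, hdeg⟩) = Pic0.mk D := by
    rw [h.extPic0_mk]
    congr 1
    exact Subtype.ext hD0
  obtain ⟨y1, hy1⟩ := pic0_divisible_of_countable k1 F1 h.isFF n hn (Pic0.mk ⟨D0, hdeg⟩)
  exact ⟨h.extPic0 y1, by rw [← map_nsmul, hy1, hz0]⟩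

/-- `Pic0` is divisible under the hypotheses of the frozen statement S27. -/
theorem pic0_divisible_of_isCurveOver (K : Type u) (F : Type v) [Field K] [Field F] [Algebra K F]
    [IsAlgClosed K] [CharZero K] [IsCurveOver K F] [Algebra.EssFiniteType K F]
    (n : ℕ) (hn : 0 < n) (c : Pic0 K F) : ∃ y : Pic0 K F, n • y = c :=
  pic0_divisible A.exists_transcendental_finite n hn c

end Fermat.Agent.S27.Div6746
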